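/-
S15 / ABS-A, BRIDGE-OUT: the fields of `Coh.Clean T 𝔾`.

General method: every `x : 𝔾` is `C.π (f 1)` (`C.π_surj`, `C.exists_ev`); `σ • C.π (f 1) = C.π ((D.ρ σ f) 1)`
(`π_smul`, `smul_ev`), `C.u (C.π (f 1)) = C.π ((D.u f) 1)` (`u_π`, `uG_ev`); `C.π (g 1) = 0` if `g ∈ Vb`
(`π_eq_zero`, `mem_img`); `C.π (g 1) ∈ C.M` if `g ∈ D.Vm`; `C.π (g 1) ∈ C.W` if `g ∈ D.Vw ⊔ Vb`.
-/
import Fermat.Agent.S15.Out.U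

set_option autoImplicit false

noncomputable section

namespace Fermat.Agent.S15.Out

open Fermat.Agent.S15 Fermat.Agent.S15.V Fermat.Agent.S15.Coh Fermat.Agent.S15.Lin

variable {Γ : Type} [Group Γ] [TopologicalSpace Γ] {l : ℕ} [Fact l.Prime]
  {T : ArithTower Γ l} {G : Type} [AddCommGroup G] [DistribMulAction Γ G]

namespace Ctx

variable (C : Ctx T G)

/-- F0 -/
theorem exists_rep (x : C.GG) : ∃ f : VV G l, C.π (f 1) = x := by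
  obtain ⟨y, rfl⟩ := C.π_surj x
  obtain ⟨f, rfl⟩ := C.exists_ev y
  exact ⟨f, rfl⟩

theorem π_ev_eq_zero {f : VV G l} (hf : f ∈ C.Vb) : C.π (f 1) = 0 :=
  C.π_eq_zero.2 ⟨f, hf, rfl⟩

theorem π_ev_mem_M {f : VV G l} (hf : f ∈ C.D.Vm) : C.π (f 1) ∈ C.M :=
  ⟨f 1, ⟨f, hf, rfl⟩, rfl⟩

theorem π_ev_mem_W {f : VV G l} (hf : f ∈ C.D.Vw ⊔ C.Vb) : C.π (f 1) ∈ C.W :=
  ⟨f 1, ⟨f, hf, rfl⟩, rfl⟩

theorem exists_of_mem_M {x : C.GG} (hx : x ∈ C.M) : ∃ f ∈ C.D.Vm, C.π (f 1) = x := by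
  obtain ⟨_, ⟨f, hf, rfl⟩, rfl⟩ := hx
  exact ⟨f, hf, rfl⟩

theorem exists_of_mem_W {x : C.GG} (hx : x ∈ C.W) : ∃ f ∈ C.D.Vw ⊔ C.Vb, C.π (f 1) = x := by
  obtain ⟨_, ⟨f, hf, rfl⟩, rfl⟩ := hx
  exact ⟨f, hf, rfl⟩

/-- F1 (`(C.cont y).comp C.π`) -/
theorem f_cont : ∀ x : C.GG, IsLocallyConstant (fun σ : Γ => σ • x) := by
  intro x
  obtain ⟨y, rfl⟩ := C.π_surj x
  exact (C.cont y).comp C.π

/-- F3 -/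
theorem f_U_triv : ∀ σ ∈ T.U, ∀ x : C.GG, σ • x = x := by
  intro σ hσ x
  obtain ⟨y, rfl⟩ := C.π_surj x
  rw [← π_smul, C.U_triv σ hσ y]

/-- F4 (`C.D.φ_Vm`, `C.hφ`) -/
theorem f_φ_M : ∀ x ∈ C.M, T.φ • x ∈ C.M := by
  intro x hx
  obtain ⟨f, hf, rfl⟩ := C.exists_of_mem_M hx
  rw [← π_smul, smul_ev, ← C.hφ]
  exact C.π_ev_mem_M (C.D.φ_Vm f hf)

/-- F6 (`C.D.Il_quot`) -/
theorem f_Il_quot : ∀ σ ∈ T.Il, ∀ x : C.GG, σ • x - x ∈ C.M := by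
  intro σ hσ x
  obtain ⟨f, rfl⟩ := C.exists_rep x
  rw [← π_smul, smul_ev, ← map_sub]
  exact C.π_ev_mem_M (f := C.D.ρ σ f - f) (C.D.Il_quot σ (C.hIl ▸ hσ) f)

/-- F7 (`C.out.u_comm`; holds for all `σ`) -/
theorem f_u_comm : ∀ σ ∈ T.Il, ∀ x : C.GG, C.u (σ • x) = σ • C.u x := by
  intro σ _ x
  obtain ⟨f, rfl⟩ := C.exists_rep x
  rw [← π_smul, smul_ev, u_π, u_π, uG_ev, uG_ev, ← π_smul, smul_ev, C.out.u_comm]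

/-- F8 (`C.out.L2a`) -/
theorem f_φ_quot : ∀ x : C.GG, T.φ • x - C.u x ∈ C.M := by
  intro x
  obtain ⟨f, rfl⟩ := C.exists_rep x
  rw [← π_smul, smul_ev, u_π, uG_ev, ← map_sub, ← C.hφ]
  exact C.π_ev_mem_M (f := C.D.ρ C.D.φ f - C.D.u f) (C.out.L2a f)

/-- F12 (`f = w + b` by `Submodule.mem_sup`; `D.Vw_fix`, `hIp`, `out.largest.stab`) -/
theorem f_Ip_W : ∀ σ ∈ T.Ip, ∀ x ∈ C.W, σ • x = x := by
  intro σ hσ x hx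
  obtain ⟨f, hf, rfl⟩ := C.exists_of_mem_W hx
  obtain ⟨w, hw, b, hb, rfl⟩ := Submodule.mem_sup.1 hf
  have hσ' : σ ∈ C.D.Ip := C.hIp ▸ hσ
  rw [← π_smul, smul_ev, map_add, C.D.Vw_fix σ hσ' w hw]
  have h1 : C.π ((w + C.D.ρ σ b) 1) = C.π (w 1) + C.π ((C.D.ρ σ b) 1) := by
    rw [← map_add]; rfl
  have h2 : C.π ((w + b) 1) = C.π (w 1) + C.π (b 1) := by
    rw [← map_add]; rfl
  rw [h1, h2, C.π_ev_eq_zero hb, C.π_ev_eq_zero (C.out.largest.stab σ b hb)]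

/-- F13 (`D.Ip_quot`) -/
theorem f_Ip_quot : ∀ σ ∈ T.Ip, ∀ x : C.GG, σ • x - x ∈ C.W := by
  intro σ hσ x
  obtain ⟨f, rfl⟩ := C.exists_rep x
  rw [← π_smul, smul_ev, ← map_sub]
  exact C.π_ev_mem_W (f := C.D.ρ σ f - f)
    (Submodule.mem_sup_left (C.D.Ip_quot σ (C.hIp ▸ hσ) f))

end Ctx

end Fermat.Agent.S15.Out
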