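/-
S15 / ABS-A, BRIDGE-OUT: the fields of `Coh.Clean T 𝔾`.

General method: every `x : 𝔾` is `C.π (f 1)` (`C.π_surj`, `C.exists_ev`); `σ • C.π (f 1) = C.π ((D.ρ σ f) 1)`
(`π_smul`, `smul_ev`), `C.u (C.π (f 1)) = C.π ((D.u f) 1)` (`u_π`, `uG_ev`); `C.π (g 1) = 0` if `g ∈ Vb`
(`π_eq_zero`, `mem_img`); `C.π (g 1) ∈ C.M` if `g ∈ D.Vm`; `C.π (g 1) ∈ C.W` if `g ∈ D.Vw ⊔ Vb`.
-/
import Fermat.Agent.S15.Out.Fields

set_option autoImplicit false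

noncomputable section

namespace Fermat.Agent.S15.Out

open Fermat.Agent.S15 Fermat.Agent.S15.V Fermat.Agent.S15.Coh Fermat.Agent.S15.Lin

variable {Γ : Type} [Group Γ] [TopologicalSpace Γ] {l : ℕ} [Fact l.Prime]
  {T : ArithTower Γ l} {G : Type} [AddCommGroup G] [DistribMulAction Γ G]

namespace Ctx

variable (C : Ctx T G)

/-- F5.  `x = π (f 1)`, `f ∈ Vm`; `l ^ r • f 1 ∈ img Vb` (`π_eq_zero`); `ρ σ f - χ σ • f ∈ Vb` (`out.L1`, `hIl`),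
`χ σ = χZ σ` (`hχ`); `smul_ev_sub_mem Vb (χZ σ) (T.χ r σ).val r (χZ_spec r σ) f _`. -/
theorem f_Il_M : ∀ r : ℕ, ∀ σ ∈ T.Il, ∀ x ∈ C.M, l ^ r • x = 0 → σ • x = (T.χ r σ).val • x := by
  intro r σ hσ x hx hr
  obtain ⟨f, hf, rfl⟩ := C.exists_of_mem_M hx
  have h0 : l ^ r • f 1 ∈ img C.Vb := by
    rw [← C.π_eq_zero, map_nsmul]
    exact hr
  have h1 : C.D.ρ σ f - C.D.χ σ • f ∈ C.Vb := C.out.L1 σ (C.hIl ▸ hσ) f hf
  have h2 := C.π_ev_eq_zero h1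
  rw [V.sub_apply, map_sub, sub_eq_zero, C.hχ] at h2
  have h3 := C.π_eq_zero.2 (smul_ev_sub_mem C.Vb (C.χZ σ) (T.χ r σ).val r (C.χZ_spec r σ) f h0)
  rw [map_sub, sub_eq_zero, map_nsmul] at h3
  rw [← C.π_smul, C.smul_ev, h2, h3]

/-- F9.  `out.L2b`: `u (φ x) = x`.  And `(T.χ r T.φ).val • x = x`: `χZ T.φ = 1` (`hχ`, `hφ`, `D.χ_φ`, cast
injective), `smul_ev_sub_mem Vb 1 (T.χ r T.φ).val r _ f _`. -/
theorem f_φ_on_M : ∀ r : ℕ, ∀ x ∈ C.M, l ^ r • x = 0 →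
    C.u (T.φ • x) = (T.χ r T.φ).val • x := by
  intro r x hx hr
  obtain ⟨f, hf, rfl⟩ := C.exists_of_mem_M hx
  have h0 : l ^ r • f 1 ∈ img C.Vb := by
    rw [← C.π_eq_zero, map_nsmul]
    exact hr
  have h1 : C.D.u (C.D.ρ C.D.φ f) - f ∈ C.Vb := C.out.L2b f hf
  have h2 := C.π_ev_eq_zero h1
  rw [V.sub_apply, map_sub, sub_eq_zero, C.hφ] at h2
  have hχ1 : C.χZ T.φ = 1 := by
    have h4 := C.hχ T.φ
    rw [← C.hφ, C.D.χ_φ] at h4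
    apply Subtype.ext
    rw [C.hφ] at h4
    rw [← h4]
    rfl
  have h5 := C.χZ_spec r T.φ
  rw [hχ1] at h5
  have h3 := C.π_eq_zero.2 (smul_ev_sub_mem C.Vb 1 (T.χ r T.φ).val r h5 f h0)
  rw [map_sub, sub_eq_zero, map_nsmul, PadicInt.coe_one, one_smul] at h3
  rw [← C.π_smul, C.smul_ev, C.u_π, C.uG_ev, h2]
  exact h3

end Ctx

end Fermat.Agent.S15.Out
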