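/-
S15 / ABS-A, BRIDGE-OUT: the fields of `Coh.Clean T 𝔾`.

General method: every `x : 𝔾` is `C.π (f 1)` (`C.π_surj`, `C.exists_ev`); `σ • C.π (f 1) = C.π ((D.ρ σ f) 1)`
(`π_smul`, `smul_ev`), `C.u (C.π (f 1)) = C.π ((D.u f) 1)` (`u_π`, `uG_ev`); `C.π (g 1) = 0` if `g ∈ Vb`
(`π_eq_zero`, `mem_img`); `C.π (g 1) ∈ C.M` if `g ∈ D.Vm`; `C.π (g 1) ∈ C.W` if `g ∈ D.Vw ⊔ Vb`.
-/
import Fermat.Agent.S15.Out.Fields

set_option autoImplicit false

noncomputable section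

namespace Fermat.Agent.S15.Out

open Fermat.Agent.S15 Fermat.Agent.S15.V Fermat.Agent.S15.Coh Fermat.Agent.S15.Lin

variable {Γ : Type} [Group Γ] [TopologicalSpace Γ] {l : ℕ} [Fact l.Prime]
  {T : ArithTower Γ l} {G : Type} [AddCommGroup G] [DistribMulAction Γ G]

theorem FieldsD_lev_eq (𝔾 : Type) [AddCommGroup 𝔾] (l r : ℕ) : lev 𝔾 l r = tor 𝔾 l r := rfl

namespace Ctx

variable (C : Ctx T G)

theorem FieldsD_card_lev (r : ℕ) : Nat.card (lev C.GG l r) =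
    l ^ (r * (Module.finrank ℚ_[l] (VV G l) - Module.finrank ℚ_[l] C.Vb)) := by
  rw [FieldsD_lev_eq]
  exact card_tor_quot C.fin (fun x _ => C.div x) C.π C.π_surj C.Vb C.ker_π r

/-- F2 (`card_tor_quot` gives `Nat.card ≠ 0`; `lev 𝔾 l r` and `tor 𝔾 l r` have the same carrier) -/
theorem f_fin : ∀ r : ℕ, Finite (lev C.GG l r) := by
  intro r
  apply Nat.finite_of_card_ne_zero
  rw [C.FieldsD_card_lev r]
  exact (pow_pos (Fact.out : l.Prime).pos _).ne'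

/-- F14.  `card_map_img` for `U = Vm` (`out.largest.le`) and `U = Vw ⊔ Vb`, `card_tor_quot`; `← pow_add`,
`Nat.pow_le_pow_right`; arithmetic from `out.L3`, `out.L5` and `finrank Vb ≤ finrank Vm, finrank (Vw ⊔ Vb)`
(`Submodule.finrank_mono`, `finiteDimensional C.fin`). -/
theorem f_card_MW : ∀ r : ℕ, Nat.card (C.M ⊓ lev C.GG l r : AddSubgroup C.GG) *
    Nat.card (C.W ⊓ lev C.GG l r : AddSubgroup C.GG) ≤ l ^ 0 * Nat.card (lev C.GG l r) := by
  intro r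
  have hfd : FiniteDimensional ℚ_[l] (VV G l) := finiteDimensional C.fin
  have hM : Nat.card (C.M ⊓ lev C.GG l r : AddSubgroup C.GG) =
      l ^ (r * (Module.finrank ℚ_[l] C.D.Vm - Module.finrank ℚ_[l] C.Vb)) := by
    rw [FieldsD_lev_eq]
    exact card_map_img C.fin C.π C.Vb C.D.Vm C.out.largest.le C.ker_π r
  have hW : Nat.card (C.W ⊓ lev C.GG l r : AddSubgroup C.GG) =
      l ^ (r * (Module.finrank ℚ_[l] (C.D.Vw ⊔ C.Vb : Submodule ℚ_[l] (VV G l))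
        - Module.finrank ℚ_[l] C.Vb)) := by
    rw [FieldsD_lev_eq]
    exact card_map_img C.fin C.π C.Vb (C.D.Vw ⊔ C.Vb) le_sup_right C.ker_π r
  rw [hM, hW, C.FieldsD_card_lev r, pow_zero, one_mul, ← pow_add, ← Nat.mul_add]
  apply Nat.pow_le_pow_right (Fact.out : l.Prime).pos
  apply Nat.mul_le_mul_left
  have h3 := C.out.L3
  have h5 := C.out.L5
  have h1 : Module.finrank ℚ_[l] C.Vb ≤ Module.finrank ℚ_[l] C.D.Vm :=
    Submodule.finrank_mono C.out.largest.le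
  have h2 : Module.finrank ℚ_[l] C.Vb ≤
      Module.finrank ℚ_[l] (C.D.Vw ⊔ C.Vb : Submodule ℚ_[l] (VV G l)) :=
    Submodule.finrank_mono le_sup_right
  omega

end Ctx

end Fermat.Agent.S15.Out
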