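/-
S15 / ABS-A, BRIDGE-OUT: the fields of `Coh.Clean T 𝔾`.

General method: every `x : 𝔾` is `C.π (f 1)` (`C.π_surj`, `C.exists_ev`); `σ • C.π (f 1) = C.π ((D.ρ σ f) 1)`
(`π_smul`, `smul_ev`), `C.u (C.π (f 1)) = C.π ((D.u f) 1)` (`u_π`, `uG_ev`); `C.π (g 1) = 0` if `g ∈ Vb`
(`π_eq_zero`, `mem_img`); `C.π (g 1) ∈ C.M` if `g ∈ D.Vm`; `C.π (g 1) ∈ C.W` if `g ∈ D.Vw ⊔ Vb`.
-/
import Fermat.Agent.S15.Out.FieldsB
import Fermat.Agent.S15.Out.FieldsC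
import Fermat.Agent.S15.Out.FieldsD

set_option autoImplicit false

noncomputable section

namespace Fermat.Agent.S15.Out

open Fermat.Agent.S15 Fermat.Agent.S15.V Fermat.Agent.S15.Coh Fermat.Agent.S15.Lin

variable {Γ : Type} [Group Γ] [TopologicalSpace Γ] {l : ℕ} [Fact l.Prime]
  {T : ArithTower Γ l} {G : Type} [AddCommGroup G] [DistribMulAction Γ G]

namespace Ctx

variable (C : Ctx T G)

/-- THE CLEAN DATA. -/
def clean (hfilt : ∀ r : ℕ, BigFilt T r (lev C.GG l r)) : Clean T C.GG where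
  M := C.M
  W := C.W
  u := C.u
  c := 0
  cont := C.f_cont
  fin := C.f_fin
  U_triv := C.f_U_triv
  φ_M := C.f_φ_M
  Il_M := C.f_Il_M
  Il_quot := C.f_Il_quot
  u_comm := C.f_u_comm
  φ_quot := C.f_φ_quot
  φ_on_M := C.f_φ_on_M
  fin_u := C.f_fin_u
  fin_inv := C.f_fin_inv
  Ip_W := C.f_Ip_W
  Ip_quot := C.f_Ip_quot
  card_MW := C.f_card_MW
  filt := hfilt

end Ctx

end Fermat.Agent.S15.Out
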