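/-
S15 / ABS-A, BRIDGE-OUT, definitions.

`G` = an `l`-primary divisible group with finite `l`-torsion and an action of `Γ` (`G = J[l^∞]` as a type),
`V = VV G l` (ABS-V), `D : LinData ℚ_[l] V Γ` the linear data built from `G` (BRIDGE-IN), `Vb` with
`LinOut D Vb` (S15-LIN / S15-LAT).  Output: `𝔾 := G ⧸ img Vb` with its clean data.
-/
import Fermat.Agent.S15.Lin.Main
import Fermat.Agent.S15.Abs.V.Export
import Fermat.Agent.S15.Coh.Clean

set_option autoImplicit false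

noncomputable section

namespace Fermat.Agent.S15.Out

open Fermat.Agent.S15 Fermat.Agent.S15.V Fermat.Agent.S15.Coh Fermat.Agent.S15.Lin

variable {Γ : Type} [Group Γ] [TopologicalSpace Γ] {l : ℕ} [Fact l.Prime]

/-- The context of BRIDGE-OUT. -/
structure Ctx (T : ArithTower Γ l) (G : Type) [AddCommGroup G] [DistribMulAction Γ G] where
  fin : {x : G | l • x = 0}.Finite
  div : ∀ x : G, ∃ z : G, l • z = x
  tors : ∀ x : G, ∃ r : ℕ, l ^ r • x = 0
  cont : ∀ x : G, IsLocallyConstant (fun σ : Γ => σ • x)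
  U_triv : ∀ σ ∈ T.U, ∀ x : G, σ • x = x
  /-- the `l`-adic cyclotomic character -/
  χZ : Γ → ℤ_[l]
  χZ_spec : ∀ (r : ℕ) (σ : Γ),
    χZ σ - ((T.χ r σ).val : ℤ_[l]) ∈ Ideal.span {(l : ℤ_[l]) ^ r}
  TlG : G →+ G
  D : LinData ℚ_[l] (VV G l) Γ
  hρ : D.ρ = rep G l Γ
  hχ : ∀ σ, D.χ σ = (χZ σ : ℚ_[l])
  hTl : D.Tl = map l TlG
  hl : D.l = (l : ℚ_[l])
  hφ : D.φ = T.φ
  hIl : D.Il = T.Il
  hIp : D.Ip = T.Ip
  /-- `g₀` is a Frobenius at `q` -/
  q : ℕ
  hq : D.χ D.g₀ = (q : ℚ_[l])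
  Vb : Submodule ℚ_[l] (VV G l)
  out : LinOut D Vb

variable {T : ArithTower Γ l} {G : Type} [AddCommGroup G] [DistribMulAction Γ G]

namespace Ctx

variable (C : Ctx T G)

/-- `G^b + K0 = img Vb` -/
def H : AddSubgroup G := img C.Vb

theorem H_stable (σ : Γ) : ∀ x ∈ C.H, σ • x ∈ C.H := by
  rintro _ ⟨f, hf, rfl⟩
  refine ⟨rep G l Γ σ f, ?_, rfl⟩
  have := C.out.largest.stab σ f hf
  rwa [C.hρ] at this

/-- `𝔾 = G ⧸ img Vb` -/
def GG : Type := G ⧸ C.H

instance : AddCommGroup C.GG := inferInstanceAs (AddCommGroup (G ⧸ C.H))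

/-- the projection -/
def π : G →+ C.GG := QuotientAddGroup.mk' C.H

theorem π_surj : Function.Surjective C.π := QuotientAddGroup.mk'_surjective C.H

theorem ker_π : C.π.ker = img C.Vb := QuotientAddGroup.ker_mk' C.H

theorem π_eq_zero {x : G} : C.π x = 0 ↔ x ∈ img C.Vb := by
  rw [← C.ker_π]; rfl

/-- an endomorphism of `G` preserving `img Vb` induces an endomorphism of `𝔾` -/
def ind (φ : G →+ G) (h : ∀ x ∈ C.H, φ x ∈ C.H) : C.GG →+ C.GG :=
  QuotientAddGroup.map C.H C.H φ h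

theorem ind_π (φ : G →+ G) (h : ∀ x ∈ C.H, φ x ∈ C.H) (x : G) :
    C.ind φ h (C.π x) = C.π (φ x) := rfl

instance : DistribMulAction Γ C.GG where
  smul σ x := C.ind (DistribSMul.toAddMonoidHom G σ) (C.H_stable σ) x
  one_smul x := by
    obtain ⟨x, rfl⟩ := C.π_surj x
    show C.π ((1 : Γ) • x) = C.π x
    rw [one_smul]
  mul_smul σ τ x := by
    obtain ⟨x, rfl⟩ := C.π_surj x
    show C.π ((σ * τ) • x) = C.π (σ • τ • x)
    rw [mul_smul]
  smul_zero σ := map_zero _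
  smul_add σ x y := map_add _ x y

theorem π_smul (σ : Γ) (x : G) : C.π (σ • x) = σ • C.π x := rfl

/-- `M = G''^m` -/
def M : AddSubgroup C.GG := (img C.D.Vm).map C.π

/-- `W = W''` -/
def W : AddSubgroup C.GG := (img (C.D.Vw ⊔ C.Vb)).map C.π

end Ctx

/-- multiplication by the integer `1 - l` on `G` -/
def oneSubL (l : ℕ) (G : Type) [AddCommGroup G] : G →+ G :=
  AddMonoidHom.id G - l • AddMonoidHom.id G

/-- `t_φ = φ + φ⁻¹` on `G` (`χ φ = 1`) -/
def tφG (T : ArithTower Γ l) (G : Type) [AddCommGroup G] [DistribMulAction Γ G] : G →+ G :=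
  DistribSMul.toAddMonoidHom G T.φ + DistribSMul.toAddMonoidHom G T.φ⁻¹

end Fermat.Agent.S15.Out
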