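/-
S15 / ABS-A, BRIDGE-OUT: the fields of `Coh.Clean T 𝔾`.

General method: every `x : 𝔾` is `C.π (f 1)` (`C.π_surj`, `C.exists_ev`); `σ • C.π (f 1) = C.π ((D.ρ σ f) 1)`
(`π_smul`, `smul_ev`), `C.u (C.π (f 1)) = C.π ((D.u f) 1)` (`u_π`, `uG_ev`); `C.π (g 1) = 0` if `g ∈ Vb`
(`π_eq_zero`, `mem_img`); `C.π (g 1) ∈ C.M` if `g ∈ D.Vm`; `C.π (g 1) ∈ C.W` if `g ∈ D.Vw ⊔ Vb`.
-/
import Fermat.Agent.S15.Out.Fields

set_option autoImplicit false

noncomputable section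

namespace Fermat.Agent.S15.Out

open Fermat.Agent.S15 Fermat.Agent.S15.V Fermat.Agent.S15.Coh Fermat.Agent.S15.Lin

variable {Γ : Type} [Group Γ] [TopologicalSpace Γ] {l : ℕ} [Fact l.Prime]
  {T : ArithTower Γ l} {G : Type} [AddCommGroup G] [DistribMulAction Γ G]

namespace Ctx

variable (C : Ctx T G)

/-- every element of `𝔾` is `l`-power torsion -/
theorem mem_torInf_GG (x : C.GG) : x ∈ torInf C.GG l := by
  obtain ⟨y, rfl⟩ := C.π_surj x
  obtain ⟨r, hr⟩ := C.tors y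
  exact ⟨r, by rw [← map_nsmul, hr, map_zero]⟩

/-- `η = g₀ + q • g₀⁻¹ - (1 + q) • id` on `G` -/
def etaG : G →+ G :=
  DistribSMul.toAddMonoidHom G C.D.g₀ + C.q • DistribSMul.toAddMonoidHom G C.D.g₀⁻¹
    - (1 + C.q) • AddMonoidHom.id G

theorem map_etaG (f : VV G l) :
    map l C.etaG f = tOp C.D.ρ C.D.χ C.D.g₀ f - (1 + C.D.χ C.D.g₀) • f := by
  have h1 : (1 + C.D.χ C.D.g₀) = (((1 + C.q : ℕ)) : ℚ_[l]) := by
    rw [C.hq]; push_cast; rfl
  rw [tOp_apply, h1, C.hq, natCast_smul, natCast_smul, C.hρ]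
  ext x
  rfl

theorem etaG_H : ∀ x ∈ C.H, C.etaG x ∈ C.H := by
  rintro _ ⟨f, hf, rfl⟩
  refine ⟨map l C.etaG f, ?_, rfl⟩
  rw [map_etaG]
  exact C.Vb.sub_mem (C.out.t_Vb _ f hf) (C.Vb.smul_mem _ hf)

/-- F10.  `finite_eq_quot C.fin C.π C.π_surj C.Vb C.ker_π (uG.comp uG) (id) (u.comp u) (id) ..` with `out.u_Vb`,
`out.L2c`, `map_comp`, `map_uG`, `map_id`; every element of `𝔾` is in `torInf 𝔾 l`. -/
theorem f_fin_u : {x : C.GG | C.u (C.u x) = x}.Finite := by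
  have h := finite_eq_quot C.fin C.π C.π_surj C.Vb C.ker_π (C.uG.comp C.uG) (AddMonoidHom.id G)
    (C.u.comp C.u) (AddMonoidHom.id C.GG) (fun x => rfl) (fun x => rfl)
    (fun f hf => by
      rw [map_comp, map_uG, map_id]
      exact C.Vb.sub_mem (C.out.u_Vb _ (C.out.u_Vb f hf)) hf)
    (fun f hf => by
      rw [map_comp, map_uG, map_id] at hf
      exact C.out.L2c f hf)
  refine h.subset ?_
  intro x hx
  exact ⟨C.mem_torInf_GG x, hx⟩

/-- F11.  `η := g₀ + q • g₀⁻¹ - (1 + q) • id` on `G`; `map l η = tOp ρ χ g₀ - (1 + χ g₀) • id` (`hq`, `hρ`,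
`natCast_smul`); it preserves `Vb` (`out.t_Vb`) and reflects it (`out.L6`); `finite_ker_quot`.  A `Γ`-fixed `x`
is killed by the induced operator. -/
theorem f_fin_inv : {x : C.GG | ∀ σ : Γ, σ • x = x}.Finite := by
  have h := finite_ker_quot C.fin C.π C.π_surj C.Vb C.ker_π C.etaG (C.ind C.etaG C.etaG_H)
    (fun x => rfl)
    (fun f hf => by
      rw [map_etaG]
      exact C.Vb.sub_mem (C.out.t_Vb _ f hf) (C.Vb.smul_mem _ hf))
    (fun f hf => by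
      rw [map_etaG] at hf
      exact C.out.L6 f hf)
  refine h.subset ?_
  intro x hx
  refine ⟨C.mem_torInf_GG x, ?_⟩
  obtain ⟨y, rfl⟩ := C.π_surj x
  have hx' : ∀ σ : Γ, σ • C.π y = C.π y := hx
  rw [ind_π]
  have h1 : C.etaG y = C.D.g₀ • y + C.q • (C.D.g₀⁻¹ • y) - (1 + C.q) • y := rfl
  rw [h1, map_sub, map_add, map_nsmul, map_nsmul, π_smul, π_smul, hx', hx', add_smul, one_smul,
    sub_self]

end Ctx

end Fermat.Agent.S15.Out
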