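/-
S15 / ABS-A, BRIDGE-OUT: the unit root operator on `G` and on `𝔾`.
-/
import Fermat.Agent.S15.Out.Ctx

set_option autoImplicit false

noncomputable section

namespace Fermat.Agent.S15.Out

open Fermat.Agent.S15 Fermat.Agent.S15.V Fermat.Agent.S15.Coh Fermat.Agent.S15.Lin

variable {Γ : Type} [Group Γ] [TopologicalSpace Γ] {l : ℕ} [Fact l.Prime]
  {T : ArithTower Γ l} {G : Type} [AddCommGroup G] [DistribMulAction Γ G]

namespace Ctx

variable (C : Ctx T G)

include C in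
/-- U0.  `img_top` (`C.div`), `torInf G l = ⊤` (`C.tors`). -/
theorem exists_ev (x : G) : ∃ f : VV G l, f 1 = x := by
  have h1 : x ∈ img (⊤ : Submodule ℚ_[l] (VV G l)) := by
    rw [img_top (fun x _ => C.div x)]
    exact C.tors x
  obtain ⟨f, _, hf⟩ := mem_img.mp h1
  exact ⟨f, hf⟩

theorem U_oneSubL_apply (x : G) : oneSubL l G x = ((1 : ℤ) - (l : ℤ)) • x := by
  rw [sub_smul, one_smul, natCast_zsmul]
  rfl

/-- U1.  Injective: `x = l • x` gives `x = l ^ r • x = 0`.  Surjective: `y = ∑ i < r, l ^ i • x`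
(`l ^ r • x = 0`), `(1 - l) y = x - l ^ r • x`  (`Finset.sum_range_succ`, induction, or `Commute.mul_geom_sum`
in `ℤ` and `zsmul`). -/
theorem oneSubL_bij (htors : ∀ x : G, ∃ r : ℕ, l ^ r • x = 0) :
    Function.Bijective (oneSubL l G) := by
  constructor
  · rw [injective_iff_map_eq_zero]
    intro x hx
    have h1 : x = l • x := by
      have h2 : x - l • x = 0 := hx
      exact sub_eq_zero.mp h2
    obtain ⟨r, hr⟩ := htors x
    have h3 : ∀ n : ℕ, x = l ^ n • x := by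
      intro n
      induction n with
      | zero => simp
      | succ n ih => rw [pow_succ, mul_smul, ← h1, ← ih]
    rw [h3 r, hr]
  · intro x
    obtain ⟨r, hr⟩ := htors x
    refine ⟨(∑ i ∈ Finset.range r, (l : ℤ) ^ i) • x, ?_⟩
    rw [U_oneSubL_apply, ← mul_smul, mul_neg_geom_sum, sub_smul, one_smul]
    have h4 : ((l : ℤ) ^ r) • x = 0 := by
      rw [← hr, ← natCast_zsmul]
      push_cast
      rfl
    rw [h4, sub_zero]

/-- the inverse of `1 - l` on `G` -/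
def invL : G →+ G := (AddEquiv.ofBijective (oneSubL l G) (oneSubL_bij C.tors)).symm.toAddMonoidHom

theorem oneSubL_invL (x : G) : oneSubL l G (C.invL x) = x :=
  (AddEquiv.ofBijective (oneSubL l G) (oneSubL_bij C.tors)).apply_symm_apply x

/-- `u = Tl - l (1 - l)⁻¹ (t_φ - Tl)` on `G` -/
def uG : G →+ G := C.TlG - l • (C.invL.comp (tφG T G - C.TlG))

/-- U2.  `map l oneSubL = (1 - l) • id` (`ext f x`; `natCast_mul_apply`), `map_comp`, `oneSubL_invL`. -/
theorem map_invL (f : VV G l) : map l C.invL f = ((1 : ℚ_[l]) - l)⁻¹ • f := by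
  have hne : ((1 : ℚ_[l]) - l) ≠ 0 := by
    intro h
    have h1 : ((l : ℕ) : ℚ_[l]) = ((1 : ℕ) : ℚ_[l]) := by
      rw [Nat.cast_one]; exact (sub_eq_zero.mp h).symm
    exact (Fact.out : l.Prime).one_lt.ne' (Nat.cast_injective h1)
  have h2 : ∀ g : VV G l, map l (oneSubL l G) g = ((1 : ℚ_[l]) - l) • g := by
    intro g
    ext x
    rw [map_apply, V.smul_apply, sub_mul, one_mul, map_sub, natCast_mul_apply]
    rfl
  have h3 : map l (oneSubL l G) (map l C.invL f) = f := by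
    ext x
    rw [map_apply, map_apply, C.oneSubL_invL]
  rw [h2] at h3
  rw [eq_inv_smul_iff₀ hne, h3]

/-- U3.  Unfold `LinData.u`, `LinData.s`, `tOp`; `C.hTl`, `C.hl`, `C.hρ`, `C.hφ`, `C.D.χ_φ`; `map_sub'`,
`map_add'`, `map_comp`, `map_invL`; `map l (l • ψ) = (l : ℚ_[l]) • map l ψ`. -/
theorem map_uG : map l C.uG = C.D.u := by
  refine LinearMap.ext fun f => ?_
  have h1 : map l (tφG T G) f = tOp C.D.ρ C.D.χ C.D.φ f := by
    rw [tOp_apply, C.D.χ_φ, one_smul, C.hρ, C.hφ]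
    rfl
  have h2 : map l C.uG f =
      map l C.TlG f - (l : ℚ_[l]) • map l C.invL (map l (tφG T G) f - map l C.TlG f) := by
    ext x
    rw [V.sub_apply, V.smul_apply, natCast_mul_apply]
    rfl
  rw [h2, map_invL, h1, LinData.u, LinData.s, C.hTl, C.hl, LinearMap.sub_apply, LinearMap.smul_apply,
    LinearMap.sub_apply, smul_smul, div_eq_mul_inv]

/-- U4.  `x = f 1`, `f ∈ Vb`; `uG x = (map l uG f) 1 = (D.u f) 1`, `C.out.u_Vb`. -/
theorem uG_H : ∀ x ∈ C.H, C.uG x ∈ C.H := by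
  rintro _ ⟨f, hf, rfl⟩
  refine ⟨C.D.u f, C.out.u_Vb f hf, ?_⟩
  rw [← C.map_uG]
  rfl

/-- the unit root operator on `𝔾` -/
def u : C.GG →+ C.GG := C.ind C.uG C.uG_H

theorem u_π (x : G) : C.u (C.π x) = C.π (C.uG x) := rfl

/-- U5.  `uG (f 1) = (D.u f) 1`. -/
theorem uG_ev (f : VV G l) : C.uG (f 1) = (C.D.u f) 1 := by
  rw [← C.map_uG]; rfl

/-- U6.  `σ • f 1 = (D.ρ σ f) 1`. -/
theorem smul_ev (σ : Γ) (f : VV G l) : σ • f 1 = (C.D.ρ σ f) 1 := by
  rw [C.hρ]; rfl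

end Ctx

end Fermat.Agent.S15.Out
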